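import Mathlib.ModelTheory.Complexity
import Mathlib.Data.Finite.Sigma

/-!
# Universal and universal-existential closures

Finite conjunctions of such closures are closures.
-/

set_option autoImplicit false

universe u v w

namespace FA.Preservation

open FirstOrder Language BoundedFormula

variable {L : Language.{u, v}}

/-- Universal quantifiers in front of existential ones in front of a quantifier-free formula. -/
inductive IsForallExists {α : Type w} : ∀ {n}, L.BoundedFormula α n → Prop
  | of_isExistential {n : ℕ} {φ : L.BoundedFormula α n} (h : φ.IsExistential) : IsForallExists φ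
  | all {n : ℕ} {φ : L.BoundedFormula α (n + 1)} (h : IsForallExists φ) : IsForallExists φ.all

theorem isQF_iInf {α : Type*} {β : Type*} [Finite β] {n : ℕ} {f : β → L.BoundedFormula α n}
    (h : ∀ b, (f b).IsQF) : (BoundedFormula.iInf f).IsQF := by
  let := Fintype.ofFinite β
  rw [BoundedFormula.iInf]
  induction (Finset.univ : Finset β).toList with
  | nil => exact IsQF.top
  | cons b l ih => exact (h b).inf ih

theorem isUniversal_relabel {α β : Type*} {m : ℕ} {φ : L.BoundedFormula α m} (h : φ.IsUniversal)
    {n : ℕ} (g : α → β ⊕ Fin n) : (φ.relabel g).IsUniversal := by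
  induction h with
  | of_isQF h => exact (h.relabel g).isUniversal
  | all _ ih => rw [relabel_all]; exact ih.all

theorem isExistential_relabel {α β : Type*} {m : ℕ} {φ : L.BoundedFormula α m}
    (h : φ.IsExistential) {n : ℕ} (g : α → β ⊕ Fin n) : (φ.relabel g).IsExistential := by
  induction h with
  | of_isQF h => exact (h.relabel g).isExistential
  | ex _ ih => rw [relabel_ex]; exact ih.ex

theorem isUniversal_alls {α : Type*} {m : ℕ} :
    ∀ {φ : L.BoundedFormula α m}, φ.IsUniversal → φ.alls.IsUniversal := by
  induction m with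
  | zero => exact id
  | succ m ih => exact fun h => ih h.all

theorem isExistential_exs {α : Type*} {m : ℕ} :
    ∀ {φ : L.BoundedFormula α m}, φ.IsExistential → φ.exs.IsExistential := by
  induction m with
  | zero => exact id
  | succ m ih => exact fun h => ih h.ex

theorem isForallExists_alls {α : Type*} {m : ℕ} :
    ∀ {φ : L.BoundedFormula α m}, IsForallExists φ → IsForallExists φ.alls := by
  induction m with
  | zero => exact id
  | succ m ih => exact fun h => ih h.all

/-- The universal closure. -/
noncomputable def allClosure (β : Type) [Finite β] (ψ : L.Formula β) : L.Sentence :=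
  (ψ.relabel (Sum.inr : β → Empty ⊕ β)).iAlls β

/-- The existential closure. -/
noncomputable def exClosure (β : Type) [Finite β] (ψ : L.Formula β) : L.Sentence :=
  (ψ.relabel (Sum.inr : β → Empty ⊕ β)).iExs β

/-- The universal-existential closure. -/
noncomputable def allExClosure (β γ : Type) [Finite β] [Finite γ] (ψ : L.Formula (β ⊕ γ)) :
    L.Sentence :=
  allClosure β (ψ.iExs γ)

theorem realize_allClosure {M : Type w} [L.Structure M] (β : Type) [Finite β] (ψ : L.Formula β) :
    M ⊨ allClosure β ψ ↔ ∀ x : β → M, ψ.Realize x := by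
  simp [allClosure, Sentence.Realize, Formula.realize_iAlls, Formula.realize_relabel]

theorem realize_exClosure {M : Type w} [L.Structure M] (β : Type) [Finite β] (ψ : L.Formula β) :
    M ⊨ exClosure β ψ ↔ ∃ x : β → M, ψ.Realize x := by
  simp [exClosure, Sentence.Realize, Formula.realize_iExs, Formula.realize_relabel]

theorem realize_allExClosure {M : Type w} [L.Structure M] (β γ : Type) [Finite β] [Finite γ]
    (ψ : L.Formula (β ⊕ γ)) :
    M ⊨ allExClosure β γ ψ ↔ ∀ x : β → M, ∃ y : γ → M, ψ.Realize (Sum.elim x y) := by
  simp [allExClosure, realize_allClosure, Formula.realize_iExs]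

theorem isUniversal_allClosure (β : Type) [Finite β] {ψ : L.Formula β} (h : ψ.IsQF) :
    (allClosure β ψ).IsUniversal :=
  isUniversal_alls (((h.relabel _).relabel _).isUniversal)

theorem isExistential_exClosure (β : Type) [Finite β] {ψ : L.Formula β} (h : ψ.IsQF) :
    (exClosure β ψ).IsExistential :=
  isExistential_exs (((h.relabel _).relabel _).isExistential)

theorem isExistential_iExs {α : Type*} (γ : Type) [Finite γ] {ψ : L.Formula (α ⊕ γ)}
    (h : ψ.IsQF) : (ψ.iExs γ).IsExistential :=
  isExistential_exs (h.relabel _).isExistential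

theorem isForallExists_allExClosure (β γ : Type) [Finite β] [Finite γ] {ψ : L.Formula (β ⊕ γ)}
    (h : ψ.IsQF) : IsForallExists (allExClosure β γ ψ) :=
  isForallExists_alls
    (.of_isExistential (isExistential_relabel (isExistential_relabel (isExistential_iExs γ h) _) _))

/-- A finite family of universal closures is one universal closure. -/
theorem exists_allClosure_eq {ι : Type} [Finite ι] (β : ι → Type) [∀ i, Finite (β i)]
    (ψ : ∀ i, L.Formula (β i)) (h : ∀ i, (ψ i).IsQF) :
    ∃ χ : L.Formula (Σ i, β i), χ.IsQF ∧ ∀ (M : Type w) [L.Structure M] [Nonempty M],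
      M ⊨ allClosure (Σ i, β i) χ ↔ ∀ i, M ⊨ allClosure (β i) (ψ i) := by
  classical
  refine ⟨Formula.iInf fun i => (ψ i).relabel (Sigma.mk i),
    isQF_iInf fun i => (h i).relabel _, fun M _ _ => ?_⟩
  simp only [realize_allClosure, Formula.realize_iInf, Formula.realize_relabel]
  refine ⟨fun hM i y => ?_, fun hM x i => hM i _⟩
  have := hM (fun c => if hc : c.1 = i then y (hc ▸ c.2) else Classical.arbitrary M) i
  simpa [Function.comp_def] using this

/-- A finite family of universal-existential closures is one such closure. -/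
theorem exists_allExClosure_eq {ι : Type} [Finite ι] (β γ : ι → Type) [∀ i, Finite (β i)]
    [∀ i, Finite (γ i)] (ψ : ∀ i, L.Formula (β i ⊕ γ i)) (h : ∀ i, (ψ i).IsQF) :
    ∃ χ : L.Formula ((Σ i, β i) ⊕ (Σ i, γ i)), χ.IsQF ∧
      ∀ (M : Type w) [L.Structure M] [Nonempty M],
        M ⊨ allExClosure (Σ i, β i) (Σ i, γ i) χ ↔ ∀ i, M ⊨ allExClosure (β i) (γ i) (ψ i) := by
  classical
  refine ⟨Formula.iInf fun i => (ψ i).relabel (Sum.map (Sigma.mk i) (Sigma.mk i)),
    isQF_iInf fun i => (h i).relabel _, fun M _ _ => ?_⟩
  simp only [realize_allExClosure, Formula.realize_iInf, Formula.realize_relabel,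
    Sum.elim_comp_map]
  refine ⟨fun hM i x => ?_, fun hM x => ?_⟩
  · obtain ⟨y, hy⟩ := hM fun c => if hc : c.1 = i then x (hc ▸ c.2) else Classical.arbitrary M
    exact ⟨fun k => y ⟨i, k⟩, by simpa [Function.comp_def] using hy i⟩
  · choose y hy using fun i => hM i (x ∘ Sigma.mk i)
    exact ⟨fun c => y c.1 c.2, fun i => hy i⟩

end FA.Preservation
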