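import Fermat.Agent.Preservation.Closures
import Fermat.Agent.Interpolation.Amalgam

/-!
# Models of consequences and their extensions

A model of the universal consequences of a theory embeds in a model of it; for the
universal-existential consequences the embedding may keep all universal formulas true, and then the
larger model embeds in an elementary extension of the smaller.
-/

set_option autoImplicit false

universe u v w

namespace FA.Preservation

open FirstOrder Language BoundedFormula Interpolation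

variable {L : Language.{u, v}}

/-- The universal consequences. -/
def universalPart (T : L.Theory) : L.Theory :=
  {σ | ∃ (n : ℕ) (ψ : L.Formula (Fin n)), ψ.IsQF ∧ σ = allClosure (Fin n) ψ ∧ T ⊨ᵇ σ}

/-- The universal-existential consequences. -/
def forallExistsPart (T : L.Theory) : L.Theory :=
  {σ | ∃ (n m : ℕ) (ψ : L.Formula (Fin n ⊕ Fin m)),
    ψ.IsQF ∧ σ = allExClosure (Fin n) (Fin m) ψ ∧ T ⊨ᵇ σ}

/-- Finitely many tuples live on finitely many points. -/
theorem exists_points {A : Type w} {ι : Type*} [Finite ι] {n : ι → ℕ} (a : ∀ i, Fin (n i) → A) :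
    ∃ (N : ℕ) (e : Fin N → A),
      Function.Injective e ∧ ∀ i, ∃ ρ : Fin (n i) → Fin N, e ∘ ρ = a i := by
  classical
  let := Fintype.ofFinite ι
  let F : Finset A := Finset.univ.biUnion fun i => Finset.univ.image (a i)
  refine ⟨F.card, fun k => (F.equivFin.symm k : A),
    Subtype.val_injective.comp F.equivFin.symm.injective, fun i => ⟨fun j => F.equivFin ⟨a i j,
      Finset.mem_biUnion.2 ⟨i, Finset.mem_univ _,
        Finset.mem_image_of_mem _ (Finset.mem_univ j)⟩⟩, funext fun j => ?_⟩⟩
  simp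

/-- A map keeping quantifier-free formulas true is an embedding. -/
theorem exists_embedding {A : Type w} {K : Type w} [L.Structure A] [L.Structure K] (x : A → K)
    (h : ∀ (n : ℕ) (ψ : L.Formula (Fin n)), ψ.IsQF → ∀ a : Fin n → A,
      ψ.Realize a → ψ.Realize (x ∘ a)) :
    ∃ f : A ↪[L] K, ∀ a, f a = x a := by
  have hiff : ∀ (n : ℕ) (ψ : L.Formula (Fin n)), ψ.IsQF → ∀ a : Fin n → A,
      (ψ.Realize (x ∘ a) ↔ ψ.Realize a) := fun n ψ hψ a =>
    ⟨fun hx => by_contra fun hn => Formula.realize_not.1 (h n ψ.not hψ.not a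
      (Formula.realize_not.2 hn)) hx, h n ψ hψ a⟩
  have hinj : Function.Injective x := fun a b hab => by
    have := (hiff 2 (Term.equal (.var 0) (.var 1)) (IsAtomic.equal _ _).isQF ![a, b]).1
      (by simp [Formula.realize_equal, hab])
    simpa [Formula.realize_equal] using this
  refine ⟨⟨⟨x, hinj⟩, fun {m} g a => ?_, fun {m} R a => ?_⟩, fun _ => rfl⟩
  · let φ : L.Formula (Fin (m + 1)) :=
      Term.equal (Term.func g fun i => .var i.castSucc) (.var (Fin.last m))
    have := (hiff _ φ (IsAtomic.equal _ _).isQF (Fin.snoc a (Structure.funMap g a))).2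
      (by simp [φ, Formula.realize_equal])
    rw [Fin.comp_snoc] at this
    change x (Structure.funMap g a) = Structure.funMap g (x ∘ a)
    simpa [φ, Formula.realize_equal, Function.comp_def] using this.symm
  · have := hiff _ (R.formula fun i => .var i) (IsAtomic.rel _ _).isQF a
    change Structure.RelMap R (x ∘ a) ↔ Structure.RelMap R a
    simpa [Function.comp_def] using this

variable {T : L.Theory}

/-- A model of the universal consequences embeds in a model. -/
theorem exists_model_extension (A : Type (max u v)) [L.Structure A] [Nonempty A]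
    (hA : A ⊨ universalPart T) :
    ∃ K : Theory.ModelType.{u, v, max u v} T, Nonempty (A ↪[L] K) := by
  classical
  obtain ⟨K, x, hx⟩ := exists_realize T {φ : L.Formula A | ∃ (n : ℕ) (ψ : L.Formula (Fin n))
      (a : Fin n → A), ψ.IsQF ∧ ψ.Realize a ∧ ψ.relabel a = φ} fun s hs => by
    have hs' : ∀ φ : s, ∃ (n : ℕ) (ψ : L.Formula (Fin n)) (a : Fin n → A),
        ψ.IsQF ∧ ψ.Realize a ∧ ψ.relabel a = φ.1 := fun φ => hs φ.2
    choose n ψ a hqf hψ hφ using hs'
    obtain ⟨N, e, he, hρ⟩ := exists_points a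
    choose ρ hρ using hρ
    by_contra hno
    let χ : L.Formula (Fin N) := Formula.not (Formula.iInf fun φ : s => (ψ φ).relabel (ρ φ))
    have hmem : allClosure (Fin N) χ ∈ universalPart T := by
      refine ⟨N, χ, (isQF_iInf fun φ => (hqf φ).relabel _).not, rfl,
        Theory.models_sentence_iff.2 fun K => (realize_allClosure _ _).2 fun z => ?_⟩
      refine Formula.realize_not.2 fun hall =>
        hno ⟨K, Function.extend e z fun _ => Classical.arbitrary K, fun φ hφs => ?_⟩
      have h' := Formula.realize_relabel.1 ((Formula.realize_iInf.1 hall) ⟨φ, hφs⟩)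
      have e1 : (ψ ⟨φ, hφs⟩).relabel (a ⟨φ, hφs⟩) = φ := hφ ⟨φ, hφs⟩
      rw [← e1, Formula.realize_relabel, ← hρ, ← Function.comp_assoc, Function.extend_comp he]
      exact h'
    refine Formula.realize_not.1 ((realize_allClosure _ _).1 (hA.realize_of_mem _ hmem) e) ?_
    exact Formula.realize_iInf.2 fun φ => Formula.realize_relabel.2 (by rw [hρ]; exact hψ φ)
  obtain ⟨f, -⟩ := exists_embedding x fun n ψ hψ a ha =>
    Formula.realize_relabel.1 (hx _ ⟨n, ψ, a, hψ, ha, rfl⟩)
  exact ⟨K, ⟨f⟩⟩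

/-- An embedding which keeps universal formulas true. -/
def IsExistentiallyClosedMap {A : Type w} {B : Type w} [L.Structure A] [L.Structure B]
    (f : A ↪[L] B) : Prop :=
  ∀ (n m : ℕ) (ψ : L.Formula (Fin n ⊕ Fin m)), ψ.IsQF → ∀ a : Fin n → A,
    (∀ y : Fin m → A, ψ.Realize (Sum.elim a y)) → ∀ z : Fin m → B, ψ.Realize (Sum.elim (f ∘ a) z)

/-- A model of the universal-existential consequences is existentially closed in a model. -/
theorem exists_closed_extension (A : Type (max u v)) [L.Structure A] [Nonempty A]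
    (hA : A ⊨ forallExistsPart T) :
    ∃ (K : Theory.ModelType.{u, v, max u v} T) (f : A ↪[L] K), IsExistentiallyClosedMap f := by
  classical
  obtain ⟨K, x, hx⟩ := exists_realize T {φ : L.Formula A | ∃ (n m : ℕ)
      (ψ : L.Formula (Fin n ⊕ Fin m)) (a : Fin n → A), ψ.IsQF ∧
        (∀ y : Fin m → A, ψ.Realize (Sum.elim a y)) ∧ (ψ.iAlls (Fin m)).relabel a = φ}
      fun s hs => by
    have hs' : ∀ φ : s, ∃ (n m : ℕ) (ψ : L.Formula (Fin n ⊕ Fin m)) (a : Fin n → A), ψ.IsQF ∧
        (∀ y : Fin m → A, ψ.Realize (Sum.elim a y)) ∧ (ψ.iAlls (Fin m)).relabel a = φ.1 :=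
      fun φ => hs φ.2
    choose n m ψ a hqf hψ hφ using hs'
    obtain ⟨N, e, he, hρ⟩ := exists_points a
    choose ρ hρ using hρ
    by_contra hno
    obtain ⟨P, ⟨ep⟩⟩ := Finite.exists_equiv_fin (Σ φ : s, Fin (m φ))
    let χ : L.Formula (Fin N ⊕ Fin P) :=
      Formula.not (Formula.iInf fun φ : s =>
        (ψ φ).relabel (Sum.map (ρ φ) fun k => ep ⟨φ, k⟩))
    have hχ : ∀ (M : Type (max u v)) [L.Structure M] (z : Fin N → M)
        (y : Fin P → M), χ.Realize (Sum.elim z y) ↔
          ¬∀ φ : s, (ψ φ).Realize (Sum.elim (z ∘ ρ φ) fun k => y (ep ⟨φ, k⟩)) := by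
      intro M _ z y
      simp only [χ, Formula.realize_not, Formula.realize_iInf, Formula.realize_relabel,
        Sum.elim_comp_map]
      rfl
    have hmem : allExClosure (Fin N) (Fin P) χ ∈
        forallExistsPart T := by
      refine ⟨N, _, χ, (isQF_iInf fun φ => (hqf φ).relabel _).not, rfl,
        Theory.models_sentence_iff.2 fun K => (realize_allExClosure _ _ _).2 fun z => ?_⟩
      by_contra! hall
      refine hno ⟨K, Function.extend e z fun _ => Classical.arbitrary K, fun φ hφs => ?_⟩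
      have e1 : ((ψ ⟨φ, hφs⟩).iAlls (Fin (m ⟨φ, hφs⟩))).relabel (a ⟨φ, hφs⟩) = φ := hφ ⟨φ, hφs⟩
      rw [← e1, Formula.realize_relabel, ← hρ, ← Function.comp_assoc, Function.extend_comp he,
        Formula.realize_iAlls]
      intro y
      let Y : Fin P → K := fun j =>
        if hj : (ep.symm j).1 = ⟨φ, hφs⟩ then y (hj ▸ (ep.symm j).2) else Classical.arbitrary K
      have := Classical.not_not.1 (mt (hχ K z Y).2 (hall Y)) ⟨φ, hφs⟩
      convert this using 2
      funext k
      simp only [Y]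
      generalize hq : ep.symm (ep ⟨⟨φ, hφs⟩, k⟩) = q
      rw [Equiv.symm_apply_apply] at hq
      subst hq
      simp
    obtain ⟨y, hy⟩ := (realize_allExClosure _ _ _).1 (hA.realize_of_mem _ hmem) e
    exact (hχ A e y).1 hy fun φ => by rw [hρ]; exact hψ φ _
  obtain ⟨f, hf⟩ := exists_embedding x fun n ψ hψ a ha => by
    have := Formula.realize_relabel.1 (hx _ ⟨n, 0, ψ.relabel Sum.inl, a, hψ.relabel _,
      fun y => Formula.realize_relabel.2 ha, rfl⟩)
    simpa [Formula.realize_iAlls, Formula.realize_relabel] using this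
  refine ⟨K, f, fun n m ψ hψ a ha z => ?_⟩
  have := Formula.realize_iAlls.1
    (Formula.realize_relabel.1 (hx _ ⟨n, m, ψ, a, hψ, ha, rfl⟩)) z
  rwa [show (f : A → K) = x from funext hf]

/-- An existentially closed substructure: the larger structure embeds in an elementary extension
of the smaller. -/
theorem exists_elementary_over {A B : Type (max u v)} [L.Structure A] [L.Structure B] [Nonempty A]
    (f : A ↪[L] B) (hf : IsExistentiallyClosedMap f) :
    ∃ (A' : Theory.ModelType.{u, v, max u v} (∅ : L.Theory)) (e : A ↪ₑ[L] A') (g : B ↪[L] A'),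
      ∀ a, g (f a) = e a := by
  classical
  obtain ⟨K, x, hx⟩ := exists_realize (∅ : L.Theory) ({φ : L.Formula B | ∃ (n : ℕ)
      (ψ : L.Formula (Fin n)) (a : Fin n → A), ψ.Realize a ∧ ψ.relabel (f ∘ a) = φ} ∪
      {φ : L.Formula B | ∃ (n : ℕ) (ψ : L.Formula (Fin n)) (b : Fin n → B),
        ψ.IsQF ∧ ψ.Realize b ∧ ψ.relabel b = φ}) fun s hs => by
    let t := s.filter fun φ => ∃ (n : ℕ) (ψ : L.Formula (Fin n)) (b : Fin n → B),
      ψ.IsQF ∧ ψ.Realize b ∧ ψ.relabel b = φ
    have ht : ∀ φ : t, ∃ (n : ℕ) (ψ : L.Formula (Fin n)) (b : Fin n → B),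
      ψ.IsQF ∧ ψ.Realize b ∧ ψ.relabel b = φ.1 := fun φ => (Finset.mem_filter.1 φ.2).2
    choose n ψ b hqf hψ hφ using ht
    let s' := s.filter fun φ => ∃ (n : ℕ) (ψ : L.Formula (Fin n)) (a : Fin n → A),
      ψ.Realize a ∧ ψ.relabel (f ∘ a) = φ
    have hs'' : ∀ φ : s', ∃ (n : ℕ) (ψ : L.Formula (Fin n)) (a : Fin n → A),
      ψ.Realize a ∧ ψ.relabel (f ∘ a) = φ.1 := fun φ => (Finset.mem_filter.1 φ.2).2
    choose n' ψ' a' hψ' hφ' using hs''
    obtain ⟨N, e, -, hρ⟩ := exists_points a'
    choose ρ hρ using hρ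
    obtain ⟨M, e', he', hσ⟩ := exists_points b
    choose σ hσ using hσ
    let χ : L.Formula (Fin N ⊕ Fin M) :=
      (Formula.iInf fun φ : t => (ψ φ).relabel fun k => Sum.inr (σ φ k)) ⊓
        Formula.iInf fun p : {p : Fin N × Fin M // f (e p.1) = e' p.2} =>
          Term.equal (.var (.inl p.1.1)) (.var (.inr p.1.2))
    obtain ⟨y, hy⟩ : ∃ y : Fin M → A, χ.Realize (Sum.elim e y) := by
      by_contra! hno
      refine Formula.realize_not.1 (hf N M χ.not (((isQF_iInf fun φ => (hqf φ).relabel _).inf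
        (isQF_iInf fun p => (IsAtomic.equal _ _).isQF)).not) e
        (fun y => Formula.realize_not.2 (hno y)) e') ?_
      simp only [χ, Formula.realize_inf, Formula.realize_iInf, Formula.realize_relabel,
        Formula.realize_equal]
      exact ⟨fun φ => by simpa [Function.comp_def, ← hσ φ] using hψ φ, fun p => p.2⟩
    simp only [χ, Formula.realize_inf, Formula.realize_iInf, Formula.realize_relabel,
      Formula.realize_equal, Term.realize_var, Sum.elim_inl, Sum.elim_inr] at hy
    let x : B → A := Function.extend e' y (Function.extend f id fun _ => Classical.arbitrary A)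
    refine ⟨Theory.ModelType.of ∅ A, x, fun φ hφs => ?_⟩
    rcases hs hφs with h | h
    · have hm : φ ∈ s' := Finset.mem_filter.2 ⟨hφs, h⟩
      have e1 : (ψ' ⟨φ, hm⟩).relabel (f ∘ a' ⟨φ, hm⟩) = φ := hφ' ⟨φ, hm⟩
      rw [← e1]
      refine (Formula.realize_relabel (M := A)).2 ?_
      rw [← hρ]
      suffices ex : x ∘ f ∘ e ∘ ρ ⟨φ, hm⟩ = e ∘ ρ ⟨φ, hm⟩ by
        rw [ex, hρ]
        exact hψ' _
      funext k
      simp only [Function.comp_apply, x]
      by_cases hk : ∃ l, e' l = f (e (ρ ⟨φ, hm⟩ k))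
      · obtain ⟨l, hl⟩ := hk
        rw [← hl, he'.extend_apply]
        exact (hy.2 ⟨(_, l), hl.symm⟩).symm
      · rw [Function.extend_apply' _ _ _ hk, f.injective.extend_apply]
        rfl
    · have hm : φ ∈ t := Finset.mem_filter.2 ⟨hφs, h⟩
      have e1 : (ψ ⟨φ, hm⟩).relabel (b ⟨φ, hm⟩) = φ := hφ ⟨φ, hm⟩
      rw [← e1]
      refine (Formula.realize_relabel (M := A)).2 ?_
      rw [← hσ, ← Function.comp_assoc, Function.extend_comp he']
      exact hy.1 ⟨φ, hm⟩
  obtain ⟨g, hg⟩ := exists_embedding x fun n ψ hψ b hb =>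
    Formula.realize_relabel.1 (hx _ (.inr ⟨n, ψ, b, hψ, hb, rfl⟩))
  have he : ∀ (n : ℕ) (ψ : L.Formula (Fin n)) (a : Fin n → A),
      ψ.Realize ((x ∘ f) ∘ a) ↔ ψ.Realize a := by
    intro n ψ a
    refine ⟨fun h => ?_, fun h => ?_⟩
    · by_contra hn
      have := Formula.realize_relabel.1 (hx _ (.inl ⟨n, ψ.not, a, hn, rfl⟩))
      exact this h
    · have := Formula.realize_relabel.1 (hx _ (.inl ⟨n, ψ, a, h, rfl⟩))
      exact this
  exact ⟨K, ⟨x ∘ f, he⟩, g, fun a => hg _⟩

end FA.Preservation
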