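import Fermat.Agent.Preservation.Extensions

/-!
# Preservation under substructures and under unions of chains

The sentences preserved are, relative to a theory, the universal and the universal-existential
ones.
-/

set_option autoImplicit false

universe u v w

namespace FA.Preservation

open FirstOrder Language BoundedFormula Interpolation

variable {L : Language.{u, v}}

/-- The union of a chain. -/
abbrev ChainUnion {G : ℕ → Type w} [∀ i, L.Structure (G i)] (f : ∀ k, G k ↪[L] G (k + 1)) :
    Type w :=
  Language.DirectLimit G (DirectedSystem.natLERec f)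

/-- A link of a chain in the union. -/
noncomputable abbrev toUnion {G : ℕ → Type w} [∀ i, L.Structure (G i)]
    (f : ∀ k, G k ↪[L] G (k + 1)) (i : ℕ) : G i ↪[L] ChainUnion f :=
  Language.DirectLimit.of L ℕ G (DirectedSystem.natLERec f) i

/-- The class of models is closed under substructures, as far as `φ` goes. -/
def IsPreservedDown (T : L.Theory) (φ : L.Sentence) : Prop :=
  ∀ (M N : Type (max u v)) [L.Structure M] [L.Structure N] [Nonempty M] [Nonempty N],
    M ⊨ T → N ⊨ T → (M ↪[L] N) → N ⊨ φ → M ⊨ φ

/-- The class of models is closed under unions of chains, as far as `φ` goes. -/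
def IsPreservedInChains (T : L.Theory) (φ : L.Sentence) : Prop :=
  ∀ (G : ℕ → Type (max u v)) [∀ i, L.Structure (G i)] [∀ i, Nonempty (G i)]
    (f : ∀ k, G k ↪[L] G (k + 1)),
    (∀ i, G i ⊨ T) → (∀ i, G i ⊨ φ) → ChainUnion f ⊨ T → ChainUnion f ⊨ φ

/-- Universal sentences pass to substructures. -/
theorem realize_of_isUniversal {φ : L.Sentence} (hφ : φ.IsUniversal) {M N : Type w} [L.Structure M]
    [L.Structure N] (f : M ↪[L] N) (h : N ⊨ φ) : M ⊨ φ := by
  refine hφ.realize_embedding f ?_
  rw [Subsingleton.elim (f ∘ default) default, Subsingleton.elim (f ∘ default) default]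
  exact h

/-- Existential sentences pass to extensions. -/
theorem realize_of_isExistential {φ : L.Sentence} (hφ : φ.IsExistential) {M N : Type w}
    [L.Structure M] [L.Structure N] (f : M ↪[L] N) (h : M ⊨ φ) : N ⊨ φ := by
  have := hφ.realize_embedding f h
  rwa [Subsingleton.elim (f ∘ default) default, Subsingleton.elim (f ∘ default) default] at this

/-- Universal-existential formulas pass to the union of a chain. -/
theorem realize_union_of_isForallExists {G : ℕ → Type w} [∀ i, L.Structure (G i)]
    (f : ∀ k, G k ↪[L] G (k + 1)) {n : ℕ} {φ : L.BoundedFormula Empty n} (hφ : IsForallExists φ) :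
    ∀ (i : ℕ) (x : Fin n → G i),
      (∀ (j : ℕ) (h : i ≤ j), φ.Realize default (DirectedSystem.natLERec f i j h ∘ x)) →
        φ.Realize default (toUnion f i ∘ x) := by
  induction hφ with
  | of_isExistential hE =>
    intro i x h
    have := hE.realize_embedding (toUnion f i) (h i le_rfl)
    rwa [Subsingleton.elim ((toUnion f i) ∘ default) default, show
      DirectedSystem.natLERec f i i le_rfl ∘ x = x from funext fun k =>
        by simp [DirectedSystem.coe_natLERec, Nat.leRecOn_self] ] at this
  | all _ ih =>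
    intro i x h
    rw [realize_all]
    intro z
    obtain ⟨j, a, rfl⟩ := Language.DirectLimit.exists_of z
    have key := ih (max i j) (Fin.snoc (DirectedSystem.natLERec f i _ (le_max_left i j) ∘ x)
      (DirectedSystem.natLERec f j _ (le_max_right i j) a)) fun k hk => by
      rw [Fin.comp_snoc, show DirectedSystem.natLERec f _ k hk ∘
        DirectedSystem.natLERec f i _ (le_max_left i j) ∘ x =
          DirectedSystem.natLERec f i k ((le_max_left i j).trans hk) ∘ x from funext fun l =>
            by simp [DirectedSystem.coe_natLERec, Nat.leRecOn_trans (le_max_left i j) hk] ]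
      exact realize_all.1 (h k _) _
    rw [Fin.comp_snoc] at key
    convert key using 2
    · exact funext fun l => Language.DirectLimit.of_f.symm
    · exact Language.DirectLimit.of_f.symm

/-- Universal-existential sentences pass to the union of a chain. -/
theorem realize_union {G : ℕ → Type w} [∀ i, L.Structure (G i)] (f : ∀ k, G k ↪[L] G (k + 1))
    {φ : L.Sentence} (hφ : IsForallExists φ) (h : ∀ i, G i ⊨ φ) : ChainUnion f ⊨ φ := by
  have := realize_union_of_isForallExists f hφ 0 default fun j hj => by
    rw [Subsingleton.elim (DirectedSystem.natLERec f 0 j hj ∘ default) default]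
    exact h j
  rwa [Subsingleton.elim ((toUnion f 0) ∘ default) default] at this

/-- A model of the universal-existential consequences has the theory of a union of a chain of
models. -/
theorem exists_chain (T : L.Theory) (A : Type (max u v)) [L.Structure A] [Nonempty A]
    (hA : A ⊨ forallExistsPart T) :
    ∃ (G : ℕ → Theory.ModelType.{u, v, max u v} T) (f : ∀ k, G k ↪[L] G (k + 1)),
      ∀ σ : L.Sentence, ChainUnion f ⊨ σ ↔ A ⊨ σ := by
  classical
  let S := {M : Theory.ModelType.{u, v, max u v} (∅ : L.Theory) // M ⊨ forallExistsPart T}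
  have hstep : ∀ s : S, ∃ (t : S) (K : Theory.ModelType.{u, v, max u v} T) (e : s.1 ↪ₑ[L] t.1)
      (h : s.1 ↪[L] K) (g : K ↪[L] t.1), ∀ a, g (h a) = e a := by
    intro s
    obtain ⟨K, h, hh⟩ := exists_closed_extension s.1 s.2
    obtain ⟨t, e, g, hg⟩ := exists_elementary_over h hh
    exact ⟨⟨t, (e.theory_model_iff _).1 s.2⟩, K, e, h, g, hg⟩
  choose next K e h g hg using hstep
  let st : ℕ → S := fun k => Nat.rec ⟨Theory.ModelType.of ∅ A, hA⟩ (fun _ s => next s) k
  let eA : ∀ k, (st k).1 ↪ₑ[L] (st (k + 1)).1 := fun k => e (st k)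
  let fB : ∀ k, K (st k) ↪[L] K (st (k + 1)) := fun k => (h (st (k + 1))).comp (g (st k))
  let up : ∀ k, K (st k) ↪[L] ChainLimit eA := fun k =>
    (toLimit eA (k + 1)).comp (g (st k))
  have hup : ∀ i j hij b, up j (DirectedSystem.natLERec fB i j hij b) = up i b := by
    intro i j hij b
    induction hij with
    | refl => simp [DirectedSystem.coe_natLERec, Nat.leRecOn_self]
    | @step j hij ih =>
      simp only [DirectedSystem.coe_natLERec] at ih ⊢
      rw [Nat.leRecOn_succ hij, ← ih]
      change toLimit eA (j + 1 + 1) (g (st (j + 1)) (h (st (j + 1)) (g (st j) _))) = _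
      rw [hg]
      exact toLimit_succ eA (j + 1) _
  let F := Language.DirectLimit.lift L ℕ (fun k => (K (st k) : Type (max u v)))
    (DirectedSystem.natLERec fB) up hup
  have hF : Function.Surjective F := by
    intro z
    obtain ⟨i, a, rfl⟩ := exists_toLimit eA z
    refine ⟨toUnion fB i (h (st i) a), ?_⟩
    rw [Language.DirectLimit.lift_of]
    change toLimit eA (i + 1) (g (st i) (h (st i) a)) = _
    rw [hg]
    exact toLimit_succ eA i a
  let E : ChainUnion fB ≃[L] ChainLimit eA :=
    ⟨Equiv.ofBijective F ⟨F.injective, hF⟩, F.map_fun', F.map_rel'⟩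
  refine ⟨fun k => K (st k), fB, fun σ => ?_⟩
  exact (StrongHomClass.realize_sentence E σ).trans
    ((toLimitElementary eA 0).map_sentence σ).symm

/-- Preservation under substructures yields a universal equivalent. -/
theorem exists_universal (T : L.Theory) (φ : L.Sentence) (hφ : IsPreservedDown T φ) :
    ∃ (β : Type) (_ : Finite β) (χ : L.Formula β), χ.IsQF ∧
      ∀ (M : Type w) [L.Structure M] [Nonempty M], M ⊨ T → (M ⊨ φ ↔ M ⊨ allClosure β χ) := by
  classical
  have hmod : (T ∪ universalPart (insert φ T)) ⊨ᵇ φ := by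
    refine Theory.models_sentence_iff.2 fun M => ?_
    obtain ⟨K, ⟨f⟩⟩ := exists_model_extension M (M.is_model.mono Set.subset_union_right)
    exact hφ M K (M.is_model.mono Set.subset_union_left) (K.is_model.mono (Set.subset_insert _ _))
      f (K.is_model.realize_of_mem φ (Set.mem_insert _ _))
  obtain ⟨T0, hT0, hT0φ⟩ := Theory.models_iff_finset_models.1 hmod
  let U := T0.filter (· ∈ universalPart (insert φ T))
  have hU : ∀ i : Fin U.card, ((U.equivFin.symm i : U) : L.Sentence) ∈
      universalPart (insert φ T) := fun i => (Finset.mem_filter.1 (U.equivFin.symm i).2).2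
  choose n ψ hqf hσ hmodσ using hU
  obtain ⟨χ, hχ, hχe⟩ := exists_allClosure_eq.{_, _, w} (fun i => Fin (n i)) ψ hqf
  refine ⟨_, inferInstance, χ, hχ, fun M _ _ hM => (Iff.trans ⟨fun hMφ i => ?_, fun hall => ?_⟩
    (hχe M).symm)⟩
  · have : M ⊨ insert φ T := ⟨fun σ hσ' => by
      rcases hσ' with rfl | hσ'
      exacts [hMφ, hM.realize_of_mem σ hσ']⟩
    rw [← hσ i]
    exact (hmodσ i).realize_sentence M
  · have : M ⊨ (T0 : L.Theory) := ⟨fun σ hσ' => by
      rcases hT0 hσ' with hT | hUσ
      · exact hM.realize_of_mem σ hT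
      · obtain ⟨i, hi⟩ : ∃ i, ((U.equivFin.symm i : U) : L.Sentence) = σ :=
          ⟨U.equivFin ⟨σ, Finset.mem_filter.2 ⟨hσ', hUσ⟩⟩, by simp⟩
        rw [← hi, hσ i]
        exact hall i⟩
    exact hT0φ.realize_sentence M

/-- Preservation under chains yields a universal-existential equivalent. -/
theorem exists_forallExists (T : L.Theory) (φ : L.Sentence) (hφ : IsPreservedInChains T φ) :
    ∃ (β γ : Type) (_ : Finite β) (_ : Finite γ) (χ : L.Formula (β ⊕ γ)), χ.IsQF ∧
      ∀ (M : Type w) [L.Structure M] [Nonempty M], M ⊨ T →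
        (M ⊨ φ ↔ M ⊨ allExClosure β γ χ) := by
  classical
  have hmod : (T ∪ forallExistsPart (insert φ T)) ⊨ᵇ φ := by
    refine Theory.models_sentence_iff.2 fun M => ?_
    obtain ⟨G, f, hG⟩ := exists_chain (insert φ T) M (M.is_model.mono Set.subset_union_right)
    refine (hG φ).1 (hφ (fun k => G k) f (fun i => (G i).is_model.mono (Set.subset_insert _ _))
      (fun i => (G i).is_model.realize_of_mem φ (Set.mem_insert _ _)) ⟨fun σ hσ => ?_⟩)
    exact (hG σ).2 (M.is_model.realize_of_mem σ (.inl hσ))
  obtain ⟨T0, hT0, hT0φ⟩ := Theory.models_iff_finset_models.1 hmod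
  let U := T0.filter (· ∈ forallExistsPart (insert φ T))
  have hU : ∀ i : Fin U.card, ((U.equivFin.symm i : U) : L.Sentence) ∈
      forallExistsPart (insert φ T) := fun i => (Finset.mem_filter.1 (U.equivFin.symm i).2).2
  choose n m ψ hqf hσ hmodσ using hU
  obtain ⟨χ, hχ, hχe⟩ :=
    exists_allExClosure_eq.{_, _, w} (fun i => Fin (n i)) (fun i => Fin (m i)) ψ hqf
  refine ⟨_, _, inferInstance, inferInstance, χ, hχ,
    fun M _ _ hM => (Iff.trans ⟨fun hMφ i => ?_, fun hall => ?_⟩ (hχe M).symm)⟩
  · have : M ⊨ insert φ T := ⟨fun σ hσ' => by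
      rcases hσ' with rfl | hσ'
      exacts [hMφ, hM.realize_of_mem σ hσ']⟩
    rw [← hσ i]
    exact (hmodσ i).realize_sentence M
  · have : M ⊨ (T0 : L.Theory) := ⟨fun σ hσ' => by
      rcases hT0 hσ' with hT | hUσ
      · exact hM.realize_of_mem σ hT
      · obtain ⟨i, hi⟩ : ∃ i, ((U.equivFin.symm i : U) : L.Sentence) = σ :=
          ⟨U.equivFin ⟨σ, Finset.mem_filter.2 ⟨hσ', hUσ⟩⟩, by simp⟩
        rw [← hi, hσ i]
        exact hall i⟩
    exact hT0φ.realize_sentence M

end FA.Preservation
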